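import Fermat.Agent.Biquadratic.Two
import Mathlib.NumberTheory.LegendreSymbol.QuadraticChar.GaussSum

/-!
# Rational quartic symbols

For a prime `q ≡ 1 (mod 4)` and a square `a` modulo `q`, `(a / q)₄` is `1` or `-1` as `a` is a fourth power modulo
`q` or not. It is the biquadratic symbol at a primary prime over `q`.
-/

set_option autoImplicit false
set_option linter.unusedSectionVars false

noncomputable section

open scoped Classical

namespace FA.RationalReciprocity

open FA.CM.Quartic FA.Biquadratic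

local notation "ℤ[i]" => GaussianInt

/-- `(a / q)₄` for a square `a` modulo `q`. -/
def quarticSign (q : ℕ) (a : ℤ) : ℤ := if ∃ y : ZMod q, y ^ 4 = (a : ZMod q) then 1 else -1

theorem quarticSign_dichotomy (q : ℕ) (a : ℤ) : quarticSign q a = 1 ∨ quarticSign q a = -1 := by
  unfold quarticSign
  split_ifs <;> simp

/-- A Gaussian integer of prime norm is prime. -/
theorem prime_of_norm_prime {γ : ℤ[i]} {p : ℕ} (hp : p.Prime) (hn : γ.norm = p) : Prime γ := by
  refine UniqueFactorizationMonoid.irreducible_iff_prime.mp (irreducible_iff.mpr ⟨fun h => ?_, fun x y h => ?_⟩)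
  · have := Zsqrtd.norm_eq_one_iff.mpr h
    rw [hn, Int.natAbs_natCast] at this
    exact hp.ne_one this
  · have h1 := congrArg (fun z : ℤ[i] => z.norm.natAbs) h
    simp only [hn, Zsqrtd.norm_mul, Int.natAbs_mul, Int.natAbs_natCast] at h1
    rcases Nat.prime_mul_iff.mp (h1 ▸ hp) with ⟨-, h2⟩ | ⟨-, h2⟩
    · exact Or.inr (Zsqrtd.norm_eq_one_iff.mp h2)
    · exact Or.inl (Zsqrtd.norm_eq_one_iff.mp h2)

theorem isCoprime_re_im {γ : ℤ[i]} {p : ℕ} (hp : p.Prime) (hn : γ.norm = p) : IsCoprime γ.re γ.im := by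
  rw [Int.isCoprime_iff_gcd_eq_one]
  obtain ⟨k, hk⟩ : ((Int.gcd γ.re γ.im : ℕ) : ℤ) ∣ γ.re := Int.gcd_dvd_left ..
  obtain ⟨l, hl⟩ : ((Int.gcd γ.re γ.im : ℕ) : ℤ) ∣ γ.im := Int.gcd_dvd_right ..
  generalize Int.gcd γ.re γ.im = g at hk hl
  refine Nat.isUnit_iff.mp (hp.prime.squarefree g (Int.natCast_dvd_natCast.mp ⟨k * k + l * l, ?_⟩))
  rw [← hn, Zsqrtd.norm_def, hk, hl]
  push_cast
  ring

/-- Two primary elements of norm `p` are equal or conjugate, and are the primary primes. -/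
theorem exists_eq_primaryPrime {γ : ℤ[i]} {p : ℕ} [hp : Fact p.Prime] (hp2 : p ≠ 2) (hγ : IsPrimary γ)
    (hn : γ.norm = p) : ∃ (j : ZMod p) (hj : j * j = -1), γ = primaryPrime hj hp2 := by
  rcases primaryPrime_cases (prime_of_norm_prime hp.out hn) hγ with ⟨p', _, j, hj, hp2', rfl⟩ | ⟨q, _, hq3, rfl⟩
  · rw [norm_primaryPrime, Nat.cast_inj] at hn
    subst hn
    exact ⟨j, hj, rfl⟩
  · exfalso
    rw [Zsqrtd.norm_neg, Zsqrtd.norm_natCast, ← Nat.cast_mul, Nat.cast_inj] at hn
    exact Nat.not_prime_mul (Fact.out : q.Prime).ne_one (Fact.out : q.Prime).ne_one (hn ▸ hp.out)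

variable {q : ℕ} [hq : Fact q.Prime] {j : ZMod q} (hj : j * j = -1) (hq2 : q ≠ 2)

/-- The quartic character detects fourth powers. -/
theorem exists_pow_four_iff {x : ℤ} (hx : (x : ZMod q) ≠ 0) :
    (∃ y : ZMod q, y ^ 4 = (x : ZMod q)) ↔ quarticChar hj hq2 (x : ZMod q) = 1 := by
  have hπ := prime_primaryPrime hj hq2
  have ho := isOdd_primaryPrime hj hq2
  rw [← symbolPrime4_primaryPrime_intCast, symbolPrime4_eq_one_iff hπ ho (fun h => hx (by
    rw [← evalI_eq_zero_iff hj hq2, map_intCast] at h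
    exact h))]
  constructor
  · rintro ⟨y, hy⟩
    refine ⟨(y.val : ℤ[i]), (evalI_eq_zero_iff hj hq2 _).mp ?_⟩
    rw [map_sub, map_pow, map_natCast, ZMod.natCast_zmod_val, hy, map_intCast, sub_self]
  · rintro ⟨y, hy⟩
    rw [← evalI_eq_zero_iff hj hq2, map_sub, map_pow, map_intCast, sub_eq_zero] at hy
    exact ⟨_, hy.symm⟩

theorem quarticChar_eq_sign {x : ℤ} (hx : (x : ZMod q) ≠ 0) (hs : IsSquare (x : ZMod q)) :
    quarticChar hj hq2 (x : ZMod q) = (quarticSign q x : ℤ[i]) := by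
  have h2 := quarticChar_sq hj hq2 (x : ZMod q)
  rw [(quadraticChar_one_iff_isSquare hx).mpr hs, Int.cast_one, sq_eq_one_iff] at h2
  unfold quarticSign
  split_ifs with h
  · rw [(exists_pow_four_iff hj hq2 hx).mp h, Int.cast_one]
  · rw [h2.resolve_left fun e => h ((exists_pow_four_iff hj hq2 hx).mpr e), Int.cast_neg, Int.cast_one]

theorem ringChar_ne_two (hq2 : q ≠ 2) : ringChar (ZMod q) ≠ 2 := (ZMod.ringChar_zmod_n q).trans_ne hq2

theorem quadraticChar_two_eq (h4 : q % 4 = 1) : quadraticChar (ZMod q) 2 = (-1) ^ ((q - 1) / 4) := by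
  have hq2 : q ≠ 2 := by omega
  have h2 : (2 : ZMod q) ≠ 0 := two_ne_zero' hq2
  have hiff := ZMod.exists_sq_eq_two_iff (p := q) hq2
  rcases (show q % 8 = 1 ∨ q % 8 = 5 by omega) with h | h
  · rw [(quadraticChar_one_iff_isSquare h2).mpr (hiff.mpr (Or.inl h)),
      Even.neg_one_pow (Nat.even_iff.mpr (by omega))]
  · rw [quadraticChar_neg_one_iff_not_isSquare.mpr (fun e => by have := hiff.mp e; omega),
      Odd.neg_one_pow (Nat.odd_iff.mpr (by omega))]

include hj hq2 in
theorem quadraticChar_neg_one_eq : quadraticChar (ZMod q) (-1) = 1 :=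
  (quadraticChar_one_iff_isSquare (neg_ne_zero.mpr one_ne_zero)).mpr ⟨j, hj.symm⟩

include hj hq2 in
/-- `2 j = (1 + j)²`. -/
theorem quadraticChar_two_mul_j : quadraticChar (ZMod q) 2 * quadraticChar (ZMod q) j = 1 := by
  have h2 : (2 : ZMod q) ≠ 0 := two_ne_zero' hq2
  rw [← map_mul, show (2 : ZMod q) * j = (1 + j) ^ 2 by linear_combination -hj]
  exact quadraticChar_sq_one' fun e => h2 (by linear_combination (1 - j) * e + hj)

theorem quadraticChar_evalI (x : ℤ[i]) :
    ((quadraticChar (ZMod q) (evalI hj x) : ℤ) : ℤ[i]) = symbol4 (primaryPrime hj hq2) x ^ 2 := by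
  rw [symbol4_prime (prime_primaryPrime hj hq2) (isOdd_primaryPrime hj hq2), symbolPrime4_primaryPrime,
    quarticChar_sq]

/-- The real part of a primary prime is a square modulo its norm. -/
theorem quadraticChar_re : quadraticChar (ZMod q) ((primaryPrime hj hq2).re : ZMod q) = 1 := by
  have h := quadraticChar_evalI hj hq2 ((primaryPrime hj hq2).re : ℤ[i])
  rw [map_intCast, symbol4_re (isPrimary_primaryPrime hj hq2)
    (isCoprime_re_im hq.out (norm_primaryPrime hj hq2)), ← pow_mul, mul_comm, pow_mul, neg_one_sq, one_pow] at h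
  exact_mod_cast h

theorem quadraticChar_evalI_star :
    quadraticChar (ZMod q) (evalI hj (star (primaryPrime hj hq2))) = quadraticChar (ZMod q) 2 := by
  set π := primaryPrime hj hq2 with hπ
  have h0 := evalI_primaryPrime hj hq2
  rw [← hπ] at h0
  have e : evalI hj (star π) = 2 * (π.re : ZMod q) := by
    rw [evalI_apply] at h0 ⊢
    rw [Zsqrtd.re_star, Zsqrtd.im_star, Int.cast_neg]
    linear_combination -h0
  rw [e, map_mul, hπ, quadraticChar_re, mul_one]

end FA.RationalReciprocity
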