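import Fermat.Agent.RationalReciprocity.Basic

/-!
# Burde's law

For primes `p ≡ q ≡ 1 (mod 4)` with `(p / q) = 1`, `(p / q)₄ (q / p)₄ = (π / q)`, the quadratic symbol modulo `q`
of a primary prime `π` over `p`; so for `p = a² + b²`, `q = c² + d²` it is `(-1) ^ ((q - 1) / 4) ((a d - b c) / q)`.
-/

set_option autoImplicit false
set_option linter.unusedSectionVars false

noncomputable section

open scoped Classical

namespace FA.RationalReciprocity

open FA.CM.Quartic FA.Biquadratic

local notation "ℤ[i]" => GaussianInt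

variable {p q : ℕ} [hp : Fact p.Prime] [hq : Fact q.Prime]

theorem natCast_ne_zero_of_ne (hpq : p ≠ q) : (p : ZMod q) ≠ 0 := by
  rw [Ne, CharP.cast_eq_zero_iff (ZMod q) q, Nat.prime_dvd_prime_iff_eq hq.out hp.out]
  exact hpq.symm

/-- A prime over `q` is coprime to a prime over `p`. -/
theorem isCoprime_of_norms {π γ : ℤ[i]} (hπ : π.norm = q) (hγ : γ.norm = p) (hpq : p ≠ q) : IsCoprime π γ := by
  refine (prime_of_norm_prime hq.out hπ).coprime_iff_not_dvd.mpr fun h => hpq ?_
  obtain ⟨c, hc⟩ := h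
  have h1 := congrArg (fun z : ℤ[i] => z.norm.natAbs) hc
  simp only [hπ, hγ, Zsqrtd.norm_mul, Int.natAbs_mul, Int.natAbs_natCast] at h1
  exact ((Nat.prime_dvd_prime_iff_eq hq.out hp.out).mp ⟨_, h1⟩).symm

/-- **Burde's law**, with a primary prime over `p`. -/
theorem sign_mul_sign {j : ZMod q} (hj : j * j = -1) (hq2 : q ≠ 2) (hp4 : p % 4 = 1) (hpq : p ≠ q)
    (hsq : IsSquare (p : ZMod q)) {γ : ℤ[i]} (hγ : IsPrimary γ) (hn : γ.norm = p) :
    quarticSign q p * quarticSign p q = quadraticChar (ZMod q) (evalI hj γ) := by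
  have hp2 : p ≠ 2 := by omega
  obtain ⟨i, hi, hγe⟩ := exists_eq_primaryPrime hp2 hγ hn
  set lam := primaryPrime hj hq2 with hlam
  have hl : IsPrimary lam := isPrimary_primaryPrime hj hq2
  have hol := isOdd_of_isPrimary hl
  have hoγ := isOdd_of_isPrimary hγ
  have hsq' : IsSquare (q : ZMod p) := (ZMod.exists_sq_eq_prime_iff_of_mod_four_eq_one hp4 hq2).mpr hsq
  have hq' : (((q : ℤ)) : ZMod p) = (q : ZMod p) := Int.cast_natCast q
  have hp' : (((p : ℤ)) : ZMod q) = (p : ZMod q) := Int.cast_natCast p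
  have e1 : symbol4 lam γ * symbol4 lam (star γ) = (quarticSign q p : ℤ[i]) := by
    rw [← symbol4_mul_right hol, ← Zsqrtd.norm_eq_mul_conj, hn, symbol4_prime (prime_primaryPrime hj hq2) hol,
      symbolPrime4_primaryPrime_intCast]
    exact quarticChar_eq_sign hj hq2 (hp' ▸ natCast_ne_zero_of_ne hpq) (hp' ▸ hsq)
  have e2 : symbol4 γ lam * symbol4 γ (star lam) = (quarticSign p q : ℤ[i]) := by
    rw [← symbol4_mul_right hoγ, ← Zsqrtd.norm_eq_mul_conj, norm_primaryPrime, hγe,
      symbol4_prime (prime_primaryPrime hi hp2) (isOdd_primaryPrime hi hp2), symbolPrime4_primaryPrime_intCast]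
    exact quarticChar_eq_sign hi hp2 (hq' ▸ natCast_ne_zero_of_ne hpq.symm) (hq' ▸ hsq')
  have e3 : symbol4 (star lam) γ = star (symbol4 lam (star γ)) := by
    rw [← symbol4_star hol, star_star]
  have e4 : normExp (star lam) = normExp lam := by rw [normExp, normExp, Zsqrtd.norm_conj]
  rw [biquadratic_reciprocity hl hγ, biquadratic_reciprocity (isPrimary_star hl) hγ, e3, e4] at e2
  have hB := symbol4_mul_star_self hol
    (isCoprime_of_norms (γ := star γ) (norm_primaryPrime hj hq2) (by rw [Zsqrtd.norm_conj, hn]) hpq)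
  apply Int.cast_injective (α := ℤ[i])
  rw [Int.cast_mul, ← e1, ← e2, quadraticChar_evalI hj hq2, ← hlam]
  have hs : ((-1 : ℤ[i]) ^ (normExp lam * normExp γ)) * (-1) ^ (normExp lam * normExp γ) = 1 := by
    rw [← mul_pow, neg_one_mul, neg_neg, one_pow]
  linear_combination (symbol4 lam γ ^ 2 * (symbol4 lam (star γ) * star (symbol4 lam (star γ)))) * hs +
    symbol4 lam γ ^ 2 * hB

/-- The primary element attached to a representation as a sum of two squares. -/
theorem exists_primary_of_sq_add_sq {a b : ℤ} (ha : a % 2 = 1) (hb : b % 2 = 0) :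
    ∃ e : ℤ, (e = 1 ∨ e = -1) ∧ IsPrimary ⟨e * a, b⟩ ∧ (⟨e * a, b⟩ : ℤ[i]).norm = a ^ 2 + b ^ 2 := by
  obtain ⟨e, he, h4⟩ : ∃ e : ℤ, (e = 1 ∨ e = -1) ∧ (e * a + b) % 4 = 1 := by
    rcases (show (a + b) % 4 = 1 ∨ (-a + b) % 4 = 1 by omega) with h | h
    exacts [⟨1, Or.inl rfl, by rwa [one_mul]⟩, ⟨-1, Or.inr rfl, by rwa [neg_one_mul]⟩]
  refine ⟨e, he, ⟨hb, h4⟩, ?_⟩
  rw [Zsqrtd.norm_def]
  rcases he with rfl | rfl <;> ring

theorem even_of_sq_add_sq {n a b : ℤ} (hn : n % 4 = 1) (ha : a % 2 = 1) (h : n = a ^ 2 + b ^ 2) : b % 2 = 0 := by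
  rcases Int.emod_two_eq_zero_or_one b with hb | hb
  · exact hb
  · obtain ⟨k, rfl⟩ : ∃ k, a = 2 * k + 1 := ⟨a / 2, by omega⟩
    obtain ⟨l, rfl⟩ : ∃ l, b = 2 * l + 1 := ⟨b / 2, by omega⟩
    ring_nf at h
    omega

/-- **Burde's law.** -/
theorem burde {a b c d : ℤ} (hp4 : p % 4 = 1) (hq4 : q % 4 = 1) (hpq : p ≠ q) (hsq : IsSquare (p : ZMod q))
    (hp' : (p : ℤ) = a ^ 2 + b ^ 2) (hq' : (q : ℤ) = c ^ 2 + d ^ 2) (ha : a % 2 = 1) (hc : c % 2 = 1) :
    quarticSign q p * quarticSign p q = (-1) ^ ((q - 1) / 4) * legendreSym q (a * d - b * c) := by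
  have hq2 : q ≠ 2 := by omega
  obtain ⟨e, he, hγ, hn⟩ := exists_primary_of_sq_add_sq ha (even_of_sq_add_sq (by omega) ha hp')
  obtain ⟨f, hf, hl, hnl⟩ := exists_primary_of_sq_add_sq hc (even_of_sq_add_sq (by omega) hc hq')
  obtain ⟨j, hj, hlam⟩ := exists_eq_primaryPrime (p := q) hq2 hl (hnl.trans hq'.symm)
  have h0 := evalI_primaryPrime hj hq2
  rw [← hlam, evalI_apply] at h0
  have hre := quadraticChar_re hj hq2
  rw [← hlam] at hre
  simp only [Int.cast_mul] at h0 hre
  rw [sign_mul_sign hj hq2 hp4 hpq hsq hγ (hn.trans hp'.symm), evalI_apply]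
  simp only [Int.cast_mul]
  have hd : (d : ZMod q) ≠ 0 := fun h => by
    rw [h, zero_mul, add_zero] at h0
    rw [h0, quadraticChar_zero] at hre
    exact zero_ne_one hre
  have hcd : quadraticChar (ZMod q) (d : ZMod q) = quadraticChar (ZMod q) 2 := by
    have h1 : (f : ZMod q) * c = -1 * ((d : ZMod q) * j) := by linear_combination h0
    rw [h1, map_mul, map_mul, quadraticChar_neg_one_eq hj hq2, one_mul] at hre
    have h2j := quadraticChar_two_mul_j hj hq2
    rcases quadraticChar_dichotomy hd with e1 | e1 <;> rw [e1] at hre ⊢ <;>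
      rcases quadraticChar_dichotomy (two_ne_zero' hq2) with e2 | e2 <;> rw [e2] at h2j ⊢ <;> omega
  have hee : (e : ZMod q) * e = 1 ∧ (f : ZMod q) * f = 1 := by
    constructor <;> [rcases he with rfl | rfl; rcases hf with rfl | rfl] <;> simp
  set x : ZMod q := (a : ZMod q) * d - b * c with hx
  set y : ZMod q := (e : ZMod q) * a * d - b * ((f : ZMod q) * c) with hy
  have key : ((e : ZMod q) * a + b * j) * d = y := by
    rw [hy]
    linear_combination (b : ZMod q) * h0
  have hxy : quadraticChar (ZMod q) y = quadraticChar (ZMod q) x := by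
    have hprod : ((a : ZMod q) * d - b * c) * ((a : ZMod q) * d + b * c) = (p : ZMod q) * (d : ZMod q) ^ 2 := by
      have h1 := congrArg (Int.cast : ℤ → ZMod q) hp'
      have h2 := congrArg (Int.cast : ℤ → ZMod q) hq'
      push_cast at h1 h2
      rw [ZMod.natCast_self] at h2
      linear_combination (b : ZMod q) ^ 2 * h2 - (d : ZMod q) ^ 2 * h1
    have hq1 := congrArg (quadraticChar (ZMod q)) hprod
    rw [map_mul, map_mul (quadraticChar (ZMod q)) (p : ZMod q), quadraticChar_sq_one' hd,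
      (quadraticChar_one_iff_isSquare (natCast_ne_zero_of_ne hpq)).mpr hsq, one_mul] at hq1
    have hsame : quadraticChar (ZMod q) ((a : ZMod q) * d + b * c) = quadraticChar (ZMod q) x := by
      rw [← hx] at hq1
      rcases Int.eq_one_or_neg_one_of_mul_eq_one hq1 with h | h <;> rw [h] at hq1 ⊢ <;> omega
    have hneg : ∀ z : ZMod q, quadraticChar (ZMod q) (-z) = quadraticChar (ZMod q) z := fun z => by
      rw [← neg_one_mul, map_mul, quadraticChar_neg_one_eq hj hq2, one_mul]
    rcases he with rfl | rfl <;> rcases hf with rfl | rfl <;>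
      simp only [hy, Int.cast_one, Int.cast_neg, one_mul, neg_mul, mul_neg]
    · rw [hx]
    · rw [sub_neg_eq_add, hsame]
    · rw [show -((a : ZMod q) * d) - b * c = -((a : ZMod q) * d + b * c) by ring, hneg, hsame]
    · rw [show -((a : ZMod q) * d) - -((b : ZMod q) * c) = -x by rw [hx]; ring, hneg]
  rw [show legendreSym q (a * d - b * c) = quadraticChar (ZMod q) x by rw [legendreSym, hx]; push_cast; rfl,
    ← quadraticChar_two_eq hq4, ← hxy, ← key, map_mul, hcd, mul_left_comm, ← pow_two,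
    quadraticChar_sq_one (two_ne_zero' hq2), mul_one]

end FA.RationalReciprocity
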