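import Fermat.Agent.RationalReciprocity.Scholz
import Mathlib.NumberTheory.Pell
import Mathlib.NumberTheory.LegendreSymbol.JacobiSymbol
import Mathlib.RingTheory.Int.Basic

/-!
# Dirichlet's criterion for `x² - p q y² = -1`

The least solution of `x² - p q y² = 1` gives a solution of one of `x² - p q y² = -1`, `p x² - q y² = 1`,
`q x² - p y² = 1`; the second needs `(q / p)₄ = 1`, the third `(p / q)₄ = 1`.
-/

set_option autoImplicit false
set_option linter.unusedSectionVars false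

noncomputable section

open scoped Classical NumberTheorySymbols

namespace FA.RationalReciprocity

open FA.CM.Quartic FA.Biquadratic

variable {p q : ℕ} [hp : Fact p.Prime] [hq : Fact q.Prime]

/-- **`p x² - q y² = 1` makes `q` a fourth power modulo `p`.** -/
theorem sign_eq_one_of_sub_eq_one (hp4 : p % 4 = 1) (hq4 : q % 4 = 1) (hsq : IsSquare (q : ZMod p)) (hpq : q ≠ p)
    {x y : ℤ} (h : (p : ℤ) * x ^ 2 - q * y ^ 2 = 1) : quarticSign p q = 1 := by
  have hp2 : p ≠ 2 := by omega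
  obtain ⟨j, hj'⟩ := (ZMod.exists_sq_eq_neg_one_iff (p := p)).mpr (by omega)
  have hj := hj'.symm
  have h1 := congrArg (Int.cast : ℤ → ZMod p) h
  push_cast at h1
  rw [ZMod.natCast_self, zero_mul, zero_sub] at h1
  have hy0 : (y : ZMod p) ≠ 0 := fun e => by rw [e] at h1; simp at h1
  have hyn : y.natAbs ≠ 0 := fun e => hy0 (by rw [Int.natAbs_eq_zero.mp e, Int.cast_zero])
  -- `x` is odd and `y` is even
  have hy2 : y % 2 = 0 := by
    rcases Int.emod_two_eq_zero_or_one y with e | e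
    · exact e
    · exfalso
      obtain ⟨b, rfl⟩ : ∃ b, y = 2 * b + 1 := ⟨y / 2, by omega⟩
      obtain ⟨k, hk⟩ : ∃ k : ℤ, (q : ℤ) = 4 * k + 1 := ⟨q / 4, by omega⟩
      obtain ⟨l, hl⟩ : ∃ l : ℤ, (p : ℤ) = 4 * l + 1 := ⟨p / 4, by omega⟩
      rw [hk, hl] at h
      rcases Int.even_or_odd' x with ⟨a, rfl | rfl⟩ <;> ring_nf at h <;> omega
  obtain ⟨k, m, hm, hkm⟩ := Nat.exists_eq_two_pow_mul_odd hyn
  have hm1 : (m : ℤ) ∣ y := Int.natCast_dvd.mpr ⟨2 ^ k, by rw [hkm, mul_comm]⟩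
  have hmod : ((p : ℤ) * x ^ 2) % (m : ℤ) = 1 % (m : ℤ) := by
    rw [show (p : ℤ) * x ^ 2 = 1 + q * y ^ 2 by linear_combination h, Int.add_emod,
      Int.emod_eq_zero_of_dvd ((hm1.pow two_ne_zero).mul_left _),
      add_zero, Int.emod_emod]
  have hJ := jacobiSym.mod_left' hmod
  rw [jacobiSym.one_left, jacobiSym.mul_left, jacobiSym.pow_left] at hJ
  have hJp : J((p : ℤ) | m) = 1 := by
    rcases jacobiSym.trichotomy (p : ℤ) m with e | e | e <;> rw [e] at hJ ⊢
    · simp at hJ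
    · nlinarith [sq_nonneg (jacobiSym x m)]
  have hqm : quadraticChar (ZMod p) (m : ZMod p) = 1 := by
    rw [jacobiSym.quadratic_reciprocity_one_mod_four hp4 hm, ← jacobiSym.legendreSym.to_jacobiSym] at hJp
    rwa [legendreSym, Int.cast_natCast] at hJp
  -- the quadratic character of `y`
  have hqy : quadraticChar (ZMod p) (y : ZMod p) = quadraticChar (ZMod p) 2 := by
    have hyabs : quadraticChar (ZMod p) (y : ZMod p) = quadraticChar (ZMod p) (y.natAbs : ZMod p) := by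
      rcases Int.natAbs_eq y with e | e <;> conv_lhs => rw [e]
      · rw [Int.cast_natCast]
      · rw [Int.cast_neg, Int.cast_natCast, quadraticChar_neg_eq hj hp2]
    rw [hyabs, hkm, Nat.cast_mul, map_mul, hqm, mul_one, Nat.cast_pow, Nat.cast_ofNat, map_pow]
    rcases (show k = 0 ∨ k = 1 ∨ 2 ≤ k by omega) with rfl | rfl | hk
    · exfalso
      obtain ⟨c, rfl⟩ := hm
      rw [pow_zero, one_mul] at hkm
      omega
    · rw [pow_one]
    · have h4 : (4 : ℤ) ∣ y := Int.natCast_dvd.mpr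
        ((pow_dvd_pow 2 hk).trans ⟨m, hkm⟩)
      obtain ⟨b, rfl⟩ := h4
      have hp8 : p % 8 = 1 := by
        obtain ⟨l, hl⟩ : ∃ l : ℤ, (p : ℤ) = 4 * l + 1 := ⟨p / 4, by omega⟩
        obtain ⟨a, rfl⟩ : ∃ a, x = 2 * a + 1 := by
          rcases Int.even_or_odd' x with ⟨a, rfl | rfl⟩
          · exfalso
            ring_nf at h
            omega
          · exact ⟨a, rfl⟩
        rw [hl] at h
        obtain ⟨c, hc⟩ := Int.even_mul_succ_self a
        have e : 4 * l + 8 * ((4 * l + 1) * c) - 16 * (q * b ^ 2) = 0 := by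
          linear_combination h - 4 * (4 * l + 1) * hc
        generalize (4 * l + 1) * c = u, (q : ℤ) * b ^ 2 = v at e
        have hl2 : l % 2 = 0 := by
          omega
        omega
      rw [quadraticChar_two_eq hp4, Even.neg_one_pow (Nat.even_iff.mpr (by omega)), one_pow]
  -- the quartic character
  set χ := quarticChar hj hp2
  have hχ : χ (q : ZMod p) * χ (y : ZMod p) ^ 2 = χ (-1) := by
    rw [← map_pow, ← map_mul]
    congr 1
    linear_combination -h1
  have hsq2 : ((quadraticChar (ZMod p) 2 : ℤ) : GaussianInt) * ((quadraticChar (ZMod p) 2 : ℤ) : GaussianInt) = 1 := by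
    rw [← Int.cast_mul, ← pow_two, quadraticChar_sq_one (two_ne_zero' hp2), Int.cast_one]
  have hneg : χ (-1) = (quadraticChar (ZMod p) 2 : ℤ) := by
    have h4 := quarticChar_neg_four hj hp2
    rw [show (-4 : ZMod p) = -1 * 2 ^ 2 by norm_num, map_mul, map_pow, quarticChar_sq] at h4
    calc χ (-1) = χ (-1) * ((quadraticChar (ZMod p) 2 : ℤ) * (quadraticChar (ZMod p) 2 : ℤ)) := by
          rw [hsq2, mul_one]
      _ = _ := by rw [← mul_assoc, h4, one_mul]
  rw [quarticChar_sq, hqy, hneg] at hχ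
  have hq1 : χ (q : ZMod p) = 1 := by
    calc χ (q : ZMod p) = χ (q : ZMod p) * (quadraticChar (ZMod p) 2 : ℤ) * (quadraticChar (ZMod p) 2 : ℤ) := by
          rw [mul_assoc, hsq2, mul_one]
      _ = 1 := by rw [hχ, hsq2]
  have hs := quarticChar_eq_sign hj hp2 (x := (q : ℤ)) (by rw [Int.cast_natCast]; exact natCast_ne_zero_of_ne hpq)
    (by rwa [Int.cast_natCast])
  rw [Int.cast_natCast, hq1] at hs
  exact (Int.cast_injective (α := GaussianInt) (by rw [Int.cast_one]; exact hs)).symm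

theorem exists_sq_of_mul {A B z : ℤ} (hA : 0 ≤ A) (hc : IsCoprime A B) (h : A * B = z ^ 2) : ∃ a, A = a ^ 2 := by
  obtain ⟨a, e | e⟩ := Int.sq_of_isCoprime hc h
  · exact ⟨a, e⟩
  · exact ⟨0, by nlinarith⟩

/-- **Dirichlet's criterion.** -/
theorem exists_negPell_of_signs (hp4 : p % 4 = 1) (hq4 : q % 4 = 1) (hpq : p ≠ q) (hsq : IsSquare (p : ZMod q))
    (h1 : quarticSign q p = -1) (h2 : quarticSign p q = -1) : ∃ x y : ℤ, x ^ 2 - (p * q : ℕ) * y ^ 2 = -1 := by
  have hq2 : q ≠ 2 := by omega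
  have hsq' : IsSquare (q : ZMod p) := (ZMod.exists_sq_eq_prime_iff_of_mod_four_eq_one hp4 hq2).mpr hsq
  push_cast
  have hd : ¬ IsSquare ((p : ℤ) * q) := by
    rintro ⟨r, hr⟩
    have hdvd : (p : ℤ) ∣ r * r := ⟨q, hr.symm⟩
    obtain ⟨c, rfl⟩ := ((Nat.prime_iff_prime_int.mp hp.out).dvd_mul.mp hdvd).elim id id
    have : (q : ℤ) = p * (c * c) := mul_left_cancel₀ (show (p : ℤ) ≠ 0 by exact_mod_cast hp.out.ne_zero)
      (by linear_combination hr)
    exact hpq ((Nat.prime_dvd_prime_iff_eq hp.out hq.out).mp (Int.natCast_dvd_natCast.mp ⟨_, this⟩))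
  have hd0 : (0 : ℤ) < (p : ℤ) * q := by
    have := hp.out.pos
    have := hq.out.pos
    positivity
  obtain ⟨X, Y, hX, hY⟩ : ∃ X Y : ℤ, 1 < X ∧ X ^ 2 - (p : ℤ) * q * Y ^ 2 = 1 := by
    obtain ⟨a, ha⟩ := Pell.IsFundamental.exists_of_not_isSquare hd0 hd
    exact ⟨a.x, a.y, ha.1, a.prop⟩
  induction hn : X.natAbs using Nat.strong_induction_on generalizing X Y with
  | _ N ih =>
  subst hn
  have hd4 := natCast_mod_four_mul (p := p) (q := q) hp4 hq4
  obtain ⟨n, rfl⟩ : ∃ n, X = 2 * n + 1 := by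
    rcases Int.even_or_odd' X with ⟨n, rfl | rfl⟩
    · exfalso
      obtain ⟨k, hk⟩ : ∃ k, (p : ℤ) * q = 4 * k + 1 := ⟨((p : ℤ) * q) / 4, by omega⟩
      rw [hk] at hY
      rcases Int.even_or_odd' Y with ⟨b, rfl | rfl⟩ <;> ring_nf at hY <;> omega
    · exact ⟨n, rfl⟩
  obtain ⟨z, rfl⟩ : ∃ z, Y = 2 * z := by
    rcases Int.even_or_odd' Y with ⟨b, rfl | rfl⟩
    · exact ⟨b, rfl⟩
    · exfalso
      obtain ⟨k, hk⟩ : ∃ k, (p : ℤ) * q = 4 * k + 1 := ⟨((p : ℤ) * q) / 4, by omega⟩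
      rw [hk] at hY
      ring_nf at hY
      omega
  have hnz : n * (n + 1) = (p : ℤ) * q * z ^ 2 :=
    mul_left_cancel₀ (show (4 : ℤ) ≠ 0 by norm_num) (by linear_combination hY)
  have hc : IsCoprime n (n + 1) := ⟨-1, 1, by ring⟩
  have hP := Nat.prime_iff_prime_int.mp hp.out
  have hQ := Nat.prime_iff_prime_int.mp hq.out
  have hPQ : IsCoprime (p : ℤ) q := by
    rw [Int.isCoprime_iff_gcd_eq_one, Int.gcd_natCast_natCast]
    exact (Nat.coprime_primes hp.out hq.out).mpr hpq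
  have hp0 : (0 : ℤ) < p := by exact_mod_cast hp.out.pos
  have hq0 : (0 : ℤ) < q := by exact_mod_cast hq.out.pos
  have split : ∀ k l A B : ℤ, 0 < k → 0 < l → k * l = (p : ℤ) * q → n = k * A → n + 1 = l * B →
      ∃ a b, n = k * a ^ 2 ∧ n + 1 = l * b ^ 2 := fun k l A B hk hl hkl eA eB => by
    have hAB : A * B = z ^ 2 := mul_left_cancel₀ (mul_ne_zero hk.ne' hl.ne')
      (by linear_combination hnz - (n + 1) * eA - (k * A) * eB - z ^ 2 * hkl)
    have hA : 0 ≤ A := by nlinarith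
    have hB : 0 ≤ B := by nlinarith
    rw [eB, eA] at hc
    obtain ⟨a, ha⟩ := exists_sq_of_mul hA hc.of_mul_left_right.of_mul_right_right hAB
    obtain ⟨b, hb⟩ := exists_sq_of_mul hB hc.of_mul_left_right.of_mul_right_right.symm (by rw [mul_comm]; exact hAB)
    exact ⟨a, b, by rw [eA, ha], by rw [eB, hb]⟩
  rcases hP.dvd_mul.mp (show (p : ℤ) ∣ n * (n + 1) from ⟨q * z ^ 2, by rw [hnz]; ring⟩) with ⟨A, eA⟩ | ⟨A, eA⟩ <;>
    rcases hQ.dvd_mul.mp (show (q : ℤ) ∣ n * (n + 1) from ⟨p * z ^ 2, by rw [hnz]; ring⟩) with ⟨B, eB⟩ | ⟨B, eB⟩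
  · obtain ⟨C, hC⟩ := hPQ.mul_dvd ⟨A, eA⟩ ⟨B, eB⟩
    obtain ⟨a, b, ea, eb⟩ := split _ 1 C (n + 1) hd0 one_pos (mul_one _) hC (one_mul _).symm
    have hb1 : 1 < |b| := by
      by_contra hcon
      have := sq_abs b
      nlinarith [abs_nonneg b]
    refine ih _ ?_ |b| a hb1 (by rw [sq_abs]; linear_combination ea - eb) rfl
    have hlt : |b| < 2 * n + 1 := by nlinarith [sq_abs b]
    omega
  · obtain ⟨a, b, ea, eb⟩ := split _ _ A B hp0 hq0 rfl eA eB
    have := sign_eq_one_of_sub_eq_one hq4 hp4 hsq hpq (x := b) (y := a) (by linear_combination ea - eb)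
    omega
  · obtain ⟨a, b, ea, eb⟩ := split _ _ B A hq0 hp0 (mul_comm _ _) eB eA
    have := sign_eq_one_of_sub_eq_one hp4 hq4 hsq' hpq.symm (x := b) (y := a) (by linear_combination ea - eb)
    omega
  · obtain ⟨C, hC⟩ := hPQ.mul_dvd ⟨A, eA⟩ ⟨B, eB⟩
    obtain ⟨a, b, ea, eb⟩ := split 1 _ n C one_pos hd0 (one_mul _) (one_mul _).symm hC
    exact ⟨a, b, by linear_combination eb - ea⟩

end FA.RationalReciprocity
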