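import Fermat.Agent.RationalReciprocity.Burde

/-!
# Scholz's law

If `t² - p u² = -1` then `t + i = η π w²` with `η = ± i`, and `2 (t + i) (t + u √p) = (t + i + u √p)²`. So the
quadratic symbol of `t + u √p` modulo `q` is that of `π`, which is `(p / q)₄ (q / p)₄`. The same factorisation of
`x + i` shows that `x² - p q y² = -1` forces `(p / q)₄ = (q / p)₄`.
-/

set_option autoImplicit false
set_option linter.unusedSectionVars false

noncomputable section

open scoped Classical

namespace FA.RationalReciprocity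

open FA.CM.Quartic FA.Biquadratic

local notation "ℤ[i]" => GaussianInt

variable {p q : ℕ} [hp : Fact p.Prime] [hq : Fact q.Prime]

theorem even_of_negPell {d t u : ℤ} (hd : d % 4 = 1) (h : t ^ 2 - d * u ^ 2 = -1) : t % 2 = 0 := by
  rcases Int.emod_two_eq_zero_or_one t with ht | ht
  · exact ht
  · exfalso
    obtain ⟨a, rfl⟩ : ∃ a, t = 2 * a + 1 := ⟨t / 2, by omega⟩
    obtain ⟨k, rfl⟩ : ∃ k, d = 4 * k + 1 := ⟨d / 4, by omega⟩
    rcases Int.even_or_odd' u with ⟨b, rfl | rfl⟩ <;> ring_nf at h <;> omega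

theorem natCast_mod_four_mul (hp4 : p % 4 = 1) (hq4 : q % 4 = 1) : ((p : ℤ) * q) % 4 = 1 := by
  rw [Int.mul_emod, show (p : ℤ) % 4 = 1 by omega, show (q : ℤ) % 4 = 1 by omega]
  norm_num

theorem isCoprime_add_I {t : ℤ} (ht : t % 2 = 0) : IsCoprime (⟨t, 1⟩ : ℤ[i]) (star ⟨t, 1⟩) := by
  obtain ⟨s, rfl⟩ : ∃ s, t = 2 * s := ⟨t / 2, by omega⟩
  refine ⟨star ⟨2 * s, 1⟩ + ((2 * (s * s) : ℤ) : ℤ[i]) * ⟨0, 1⟩, -(((2 * (s * s) : ℤ) : ℤ[i]) * ⟨0, 1⟩), ?_⟩
  ext <;> simp <;> ring

/-- A divisor whose cofactor has square norm leaves a square times a unit. -/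
theorem exists_sq_part {z g : ℤ[i]} {u : ℤ} (hg : g ∣ z) (hz : IsCoprime z (star z)) (hg0 : g ≠ 0)
    (hn : z.norm = g.norm * u ^ 2) : ∃ η w : ℤ[i], IsUnit η ∧ z = η * g * w ^ 2 := by
  obtain ⟨δ, rfl⟩ := hg
  have hn0 : g.norm ≠ 0 := fun e => hg0 ((GaussianInt.norm_eq_zero (x := g)).mp e)
  rw [Zsqrtd.norm_mul, mul_right_inj' hn0] at hn
  rw [star_mul'] at hz
  obtain ⟨w, η, hw⟩ := exists_associated_pow_of_mul_eq_pow' hz.of_mul_left_right.of_mul_right_right
    (c := (u : ℤ[i])) (k := 2) (by rw [← Zsqrtd.norm_eq_mul_conj, hn, Int.cast_pow])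
  exact ⟨η, w, η.isUnit, by rw [← hw]; ring⟩

theorem unit_eq_I {η g w : ℤ[i]} {t : ℤ} (hη : IsUnit η) (hg : g.im % 2 = 0) (h : ⟨t, 1⟩ = η * g * w ^ 2) :
    η = ⟨0, 1⟩ ∨ η = ⟨0, -1⟩ := by
  have he : (g * w ^ 2).im % 2 = 0 := by
    obtain ⟨k, hk⟩ := Int.dvd_of_emod_eq_zero hg
    rw [pow_two]
    simp only [Zsqrtd.im_mul, Zsqrtd.re_mul, hk]
    ring_nf
    omega
  rw [mul_assoc] at h
  rcases isUnit_cases hη with rfl | rfl | rfl | rfl
  · have := congrArg Zsqrtd.im h
    rw [one_mul] at this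
    simp only at this
    omega
  · exact Or.inl rfl
  · have := congrArg Zsqrtd.im h
    rw [neg_one_mul, Zsqrtd.im_neg] at this
    simp only at this
    omega
  · exact Or.inr rfl

variable {j : ZMod q} (hj : j * j = -1) (hq2 : q ≠ 2)

include hj hq2 in
theorem quadraticChar_neg_eq (z : ZMod q) : quadraticChar (ZMod q) (-z) = quadraticChar (ZMod q) z := by
  rw [← neg_one_mul, map_mul, quadraticChar_neg_one_eq hj hq2, one_mul]

include hj hq2 in
theorem quadraticChar_j : quadraticChar (ZMod q) j = quadraticChar (ZMod q) 2 := by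
  have h := quadraticChar_two_mul_j hj hq2
  rcases quadraticChar_dichotomy (two_ne_zero' hq2) with e | e <;> rw [e] at h ⊢ <;> omega

include hq2 in
theorem quadraticChar_unit {η : ℤ[i]} (h : η = ⟨0, 1⟩ ∨ η = ⟨0, -1⟩) :
    quadraticChar (ZMod q) (evalI hj η) = quadraticChar (ZMod q) 2 := by
  rcases h with rfl | rfl <;> simp [evalI_apply, quadraticChar_neg_eq hj hq2, quadraticChar_j hj hq2]

theorem quadraticChar_sq_mul {F : Type*} [Field F] [Fintype F] [DecidableEq F] (x w : F)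
    (h : x * w ^ 2 ≠ 0) : quadraticChar F (x * w ^ 2) = quadraticChar F x := by
  rw [map_mul, quadraticChar_sq_one' (pow_ne_zero_iff two_ne_zero |>.mp (right_ne_zero_of_mul h)), mul_one]

/-- **Scholz's law.** -/
theorem scholz (hp4 : p % 4 = 1) (hq4 : q % 4 = 1) (hpq : p ≠ q) {t u : ℤ} (h : t ^ 2 - p * u ^ 2 = -1)
    {r : ZMod q} (hr : r ^ 2 = (p : ZMod q)) :
    quadraticChar (ZMod q) ((t : ZMod q) + u * r) = quarticSign q p * quarticSign p q := by
  have hp2 : p ≠ 2 := by omega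
  have hq2 : q ≠ 2 := by omega
  have ht := even_of_negPell (by omega) h
  have hi : -(t : ZMod p) * -(t : ZMod p) = -1 := by
    have := congrArg (Int.cast : ℤ → ZMod p) h
    push_cast at this
    rw [ZMod.natCast_self] at this
    linear_combination this
  set γ := primaryPrime hi hp2 with hγ
  have hdvd : γ ∣ ⟨t, 1⟩ := (evalI_eq_zero_iff hi hp2 _).mp (by simp [evalI_apply])
  obtain ⟨η, w, hη, he⟩ := exists_sq_part hdvd (isCoprime_add_I ht) (prime_primaryPrime hi hp2).ne_zero (u := u)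
    (by rw [Zsqrtd.norm_def, hγ, norm_primaryPrime]; linear_combination h)
  have hη' := unit_eq_I hη (isPrimary_primaryPrime hi hp2).1 he
  obtain ⟨j, hj, htj⟩ : ∃ j : ZMod q, j * j = -1 ∧ (t : ZMod q) + j ≠ 0 := by
    obtain ⟨k, hk⟩ := (ZMod.exists_sq_eq_neg_one_iff (p := q)).mpr (by omega)
    by_cases h0 : (t : ZMod q) + k = 0
    · refine ⟨-k, by rw [neg_mul_neg, hk], fun e => ?_⟩
      have : (2 : ZMod q) * k = 0 := by linear_combination h0 - e
      rcases mul_eq_zero.mp this with e' | e'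
      · exact two_ne_zero' hq2 e'
      · exact one_ne_zero (neg_eq_zero.mp (hk.trans (by rw [e', mul_zero])))
    · exact ⟨k, hk.symm, h0⟩
  have h1 := congrArg (Int.cast : ℤ → ZMod q) h
  push_cast at h1
  have hid : 2 * ((t : ZMod q) + j) * ((t : ZMod q) + u * r) = ((t : ZMod q) + j + u * r) ^ 2 := by
    linear_combination h1 - hj - (u : ZMod q) ^ 2 * hr
  have hx : (t : ZMod q) + u * r ≠ 0 := fun e => one_ne_zero (show (1 : ZMod q) = 0 by
    linear_combination h1 - (t - u * r) * e - (u : ZMod q) ^ 2 * hr)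
  have hne : ((t : ZMod q) + j + u * r) ^ 2 ≠ 0 := hid ▸ mul_ne_zero (mul_ne_zero (two_ne_zero' hq2) htj) hx
  have h2 := congrArg (quadraticChar (ZMod q)) hid
  rw [map_mul, map_mul, quadraticChar_sq_one' (fun e => hne (by rw [e, zero_pow two_ne_zero]))] at h2
  have hev : (t : ZMod q) + j = evalI hj η * evalI hj γ * evalI hj w ^ 2 := by
    rw [← map_pow, ← map_mul, ← map_mul, ← he, evalI_apply]
    simp
  rw [hev, quadraticChar_sq_mul _ _ (hev ▸ htj), map_mul, quadraticChar_unit hj hq2 hη', ← mul_assoc, ← pow_two,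
    quadraticChar_sq_one (two_ne_zero' hq2), one_mul] at h2
  rw [sign_mul_sign hj hq2 hp4 hpq ⟨r, by rw [← pow_two, hr]⟩ (isPrimary_primaryPrime hi hp2)
    (norm_primaryPrime hi hp2), ← hγ]
  rcases Int.eq_one_or_neg_one_of_mul_eq_one h2 with e | e <;> rw [e] at h2 ⊢ <;> omega

/-- **Scholz's necessary condition for `x² - p q y² = -1`.** -/
theorem sign_eq_of_negPell (hp4 : p % 4 = 1) (hq4 : q % 4 = 1) (hpq : p ≠ q) (hsq : IsSquare (p : ZMod q))
    {x y : ℤ} (h : x ^ 2 - (p * q : ℕ) * y ^ 2 = -1) : quarticSign q p = quarticSign p q := by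
  have hp2 : p ≠ 2 := by omega
  have hq2 : q ≠ 2 := by omega
  push_cast at h
  have ht := even_of_negPell (natCast_mod_four_mul hp4 hq4) h
  have hi : -(x : ZMod p) * -(x : ZMod p) = -1 := by
    have := congrArg (Int.cast : ℤ → ZMod p) h
    push_cast at this
    rw [ZMod.natCast_self] at this
    linear_combination this
  have hj : -(x : ZMod q) * -(x : ZMod q) = -1 := by
    have := congrArg (Int.cast : ℤ → ZMod q) h
    push_cast at this
    rw [ZMod.natCast_self] at this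
    linear_combination this
  set γ := primaryPrime hi hp2 with hγ
  set lam := primaryPrime hj hq2 with hlam
  have hd1 : γ ∣ ⟨x, 1⟩ := (evalI_eq_zero_iff hi hp2 _).mp (by simp [evalI_apply])
  have hd2 : lam ∣ ⟨x, 1⟩ := (evalI_eq_zero_iff hj hq2 _).mp (by simp [evalI_apply])
  have hcop : IsCoprime lam γ := isCoprime_of_norms (norm_primaryPrime hj hq2) (norm_primaryPrime hi hp2) hpq
  have hg := (isPrimary_primaryPrime hj hq2).mul (isPrimary_primaryPrime hi hp2)
  obtain ⟨η, w, hη, he⟩ := exists_sq_part (hcop.mul_dvd hd2 hd1) (isCoprime_add_I ht) hg.ne_zero (u := y)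
    (by rw [Zsqrtd.norm_mul, norm_primaryPrime, norm_primaryPrime, Zsqrtd.norm_def]; linear_combination h)
  have hη' := unit_eq_I hη hg.1 he
  have h1 := congrArg (fun z : ℤ[i] => evalI hj (star z)) he
  simp only [star_mul', star_pow, map_mul, map_pow] at h1
  have hl : evalI hj (star (⟨x, 1⟩ : ℤ[i])) = -(2 * -(x : ZMod q)) := by
    simp [evalI_apply]
    ring
  have hj0 : -(x : ZMod q) ≠ 0 := fun e => one_ne_zero (neg_eq_zero.mp (hj.symm.trans (by rw [e, mul_zero])))
  have hne : evalI hj (star (⟨x, 1⟩ : ℤ[i])) ≠ 0 := by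
    rw [hl]
    exact neg_ne_zero.mpr (mul_ne_zero (two_ne_zero' hq2) hj0)
  have h2 := congrArg (quadraticChar (ZMod q)) h1
  rw [quadraticChar_sq_mul _ _ (h1 ▸ hne), hl, quadraticChar_neg_eq hj hq2, map_mul,
    quadraticChar_two_mul_j hj hq2, map_mul, map_mul, quadraticChar_evalI_star,
    quadraticChar_unit hj hq2 (by rcases hη' with rfl | rfl <;> [right; left] <;> ext <;> simp)] at h2
  rw [← mul_assoc, ← pow_two, quadraticChar_sq_one (two_ne_zero' hq2), one_mul,
    ← sign_mul_sign hj hq2 hp4 hpq hsq (isPrimary_star (isPrimary_primaryPrime hi hp2))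
      (by rw [Zsqrtd.norm_conj, norm_primaryPrime])] at h2
  rcases quarticSign_dichotomy q p with e | e <;> rcases quarticSign_dichotomy p q with e' | e' <;>
    rw [e, e'] at h2 ⊢ <;> omega

end FA.RationalReciprocity
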